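import Fermat.Agent.S26.Cube.GlueCube
import Fermat.Agent.S26.SpecCube
import Fermat.Agent.S26.H480.GICover

/-!
# Row S26, block CUBE, leaf C5 (subtask 545): `cube_of` in the row-lead's shape (helper778)

`Fermat.Agent.S26.H778.cube_of` is the statement of `Skel/CubeSkel.lean` (helper987) VERBATIM:
the theorem of the cube from `Stmt.CurveCube`, `Stmt.CurvesGenerate`, `Stmt.BaseChange`,
`Stmt.LocalOnBase` (P4), `Stmt.GenericTrivial` (P5) and geometric integrality.

It is `Cube.cube_of` / `Cube.squareK_of` (`Cube/GlueCube.lean`, `Cube/GlueSquare.lean`) composed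
with the adapters between the two frozen interfaces (`SpecCube.lean` and `Cube/Spec.lean`), which
are proved here; the covering by translates is `H480.exists_transl_mem`.
-/

set_option autoImplicit false
universe u

open CategoryTheory CategoryTheory.Limits AlgebraicGeometry NeronModelInfra GoodReductionJacobian

namespace Fermat.Agent.S26.H778

noncomputable section

variable {K : Type u} [Field K] {T : PicTheory.{u}}

/-! ## Adapters `SpecCube.lean → Cube/Spec.lean` -/

theorem face1_eq {C Y Z : Scheme.{u}} (c : C ⟶ Spec (CommRingCat.of K))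
    (y : Y ⟶ Spec (CommRingCat.of K)) (z : Z ⟶ Spec (CommRingCat.of K)) (c0 : KPt c) :
    Cube.face1 c y z c0 = inr c (prodStr y z) c0 := rfl

theorem face2_eq {C Y Z : Scheme.{u}} (c : C ⟶ Spec (CommRingCat.of K))
    (y : Y ⟶ Spec (CommRingCat.of K)) (z : Z ⟶ Spec (CommRingCat.of K)) (y0 : KPt y) :
    Cube.face2 c y z y0 = prodMapRight c z (prodStr y z) (inr y z y0) (inr_prodStr y z y0) := by
  apply pullback.hom_ext
  · simp only [Cube.face2, prodMapRight, inr, Cube.prodStr, prodStr, pullback.map,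
      pullback.lift_fst, pullback.lift_snd, pullback.lift_fst_assoc, pullback.lift_snd_assoc,
      Category.comp_id, Category.assoc]
  · apply pullback.hom_ext <;>
    simp only [Cube.face2, prodMapRight, inr, Cube.prodStr, prodStr, pullback.map,
      pullback.lift_fst, pullback.lift_snd, pullback.lift_fst_assoc, pullback.lift_snd_assoc,
      Category.comp_id, Category.assoc]

theorem face3_eq {C Y Z : Scheme.{u}} (c : C ⟶ Spec (CommRingCat.of K))
    (y : Y ⟶ Spec (CommRingCat.of K)) (z : Z ⟶ Spec (CommRingCat.of K)) (z0 : KPt z) :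
    Cube.face3 c y z z0 = prodMapRight c y (prodStr y z) (inl y z z0) (inl_prodStr y z z0) := by
  apply pullback.hom_ext
  · simp only [Cube.face3, prodMapRight, inl, Cube.prodStr, prodStr, pullback.map,
      pullback.lift_fst, pullback.lift_snd, pullback.lift_fst_assoc, pullback.lift_snd_assoc,
      Category.comp_id, Category.assoc]
  · apply pullback.hom_ext <;>
    simp only [Cube.face3, prodMapRight, inl, Cube.prodStr, prodStr, pullback.map,
      pullback.lift_fst, pullback.lift_snd, pullback.lift_fst_assoc, pullback.lift_snd_assoc,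
      Category.comp_id, Category.assoc]

variable [IsAlgClosed K]

theorem curveCube_of_stmt (h : Stmt.CurveCube T K) : Cube.CurveCube T K := by
  intro C Y Z c y z _ _ _ _ _ _ _ c0 y0 z0 N h1 h2 h3
  rw [face1_eq] at h1
  rw [face2_eq] at h2
  rw [face3_eq] at h3
  exact h C c c0 Y Z y z y0 z0 N h1 h2 h3

theorem curvesGenerate_of_stmt (h : Stmt.CurvesGenerate K) : Cube.CurvesGenerate K := by
  intro X
  letI := X.law.pointGroup (𝟙 (Spec (CommRingCat.of K)))
  rw [eq_top_iff]
  intro x _
  refine h X (fun x => x ∈ Subgroup.closure (Cube.curvePoints X)) (Subgroup.one_mem _)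
    (fun x y hx hy => Subgroup.mul_mem _ hx hy) (fun x hx => Subgroup.inv_mem _ hx) ?_ x
  intro Γ p
  haveI := Γ.proper
  haveI := Γ.smooth
  haveI := Γ.integral
  exact Subgroup.subset_closure
    ⟨Γ.C, Γ.str, Γ.proper, Γ.smooth, Γ.integral, Γ.base, p, ⟨Γ.ι, Γ.ι_str⟩,
      Subtype.ext Γ.base_zero, rfl⟩

theorem seesawLocal_of_stmt (h : Stmt.LocalOnBase T K) : Cube.SeesawLocal T K :=
  fun {S W} s w _ _ w0 c hc => h S W s w w0 c hc

theorem genericSpread_of_stmt (h : Stmt.GenericTrivial T K) : Cube.GenericSpread T K :=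
  fun {S W} _ s w _ _ _ c F _ _ φ hφ hc => h S W s w c F φ hφ hc

theorem geomIntegral_of (hGI : ∀ X : AbVar K, GeometricallyIntegral X.str) :
    Cube.GeomIntegral K := hGI

theorem integral_of (hGI : ∀ X : AbVar K, GeometricallyIntegral X.str) : Stmt.Integral K := by
  intro X
  haveI := hGI X
  exact GeometricallyIntegral.isIntegral_of_subsingleton X.str

theorem cover : Cube.Cover K := fun X U hU a => H480.exists_transl_mem X U hU a

/-- (G2) with `Stmt.BaseChange`. -/
theorem squareField_of_stmt (hBC : Stmt.BaseChange K)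
    (hSq : ∀ (F : Type u) [Field F] [IsAlgClosed F], Cube.SquareK T F) :
    Cube.SquareField T K := by
  intro X M F _ _ ψ x S σ b c
  obtain ⟨φ, rfl⟩ : ∃ φ : K →+* F, Spec.map (CommRingCat.ofHom φ) = ψ :=
    ⟨(Spec.preimage ψ).hom, by
      have : CommRingCat.ofHom (Spec.preimage ψ).hom = Spec.preimage ψ := rfl
      rw [this, Spec.map_preimage]⟩
  obtain ⟨X', π, hπ, hpb, -, hmul⟩ := hBC X F φ
  have hx : x.1 ≫ X.str = 𝟙 _ ≫ Spec.map (CommRingCat.ofHom φ) := by
    rw [x.2, Category.id_comp]
  let x' : X'.Pt := ⟨hpb.lift x.1 (𝟙 _) hx, hpb.lift_snd _ _ _⟩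
  let b' : SchemeHomOver σ X'.str := ⟨hpb.lift b.1 σ b.2, hpb.lift_snd _ _ _⟩
  let c' : SchemeHomOver σ X'.str := ⟨hpb.lift c.1 σ c.2, hpb.lift_snd _ _ _⟩
  have hx' : (X'.const σ x').1 ≫ π =
      (schemeHomOverComp σ rfl x :
        SchemeHomOver (σ ≫ Spec.map (CommRingCat.ofHom φ)) X.str).1 := by
    rw [AbVar.const_coe, Category.assoc, schemeHomOverComp_coe]
    congr 1
    exact hpb.lift_fst _ _ _
  have hb' : b'.1 ≫ π = b.1 := hpb.lift_fst _ _ _
  have hc' : c'.1 ≫ π = c.1 := hpb.lift_fst _ _ _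
  rw [← Cube.theta_eq_of_push X X' _ π hπ (fun σ a b => hmul σ a b) σ (X'.const σ x') b' c' _ b c
    hx' hb' hc' M]
  exact hSq F X' (T.map π M) x' σ b' c'

end

/-! ## The theorem of the cube, official statement -/

section Official

variable {K : Type u} [Field K] [IsAlgClosed K] {T : PicTheory.{u}}

/-- **C5 (subtask 545).**  The theorem of the cube; statement of `Skel/CubeSkel.lean`. -/
theorem cube_of (hT : T.IsLocal)
    (hC1 : ∀ (K' : Type u) [Field K'] [IsAlgClosed K'], Stmt.CurveCube T K')
    (hGI : ∀ (K' : Type u) [Field K'] [IsAlgClosed K'] (X : AbVar K'),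
      GeometricallyIntegral X.str)
    (hGen : ∀ (K' : Type u) [Field K'] [IsAlgClosed K'], Stmt.CurvesGenerate K')
    (hBC : Stmt.BaseChange K) (hP4 : Stmt.LocalOnBase T K) (hP5 : Stmt.GenericTrivial T K) :
    Stmt.Cube T K := by
  have hSK : ∀ (F : Type u) [Field F] [IsAlgClosed F], Cube.SquareK T F := fun F _ _ =>
    Cube.squareK_of hT (curveCube_of_stmt (hC1 F)) (curvesGenerate_of_stmt (hGen F)) (hGI F)
  exact Cube.cube_of hT (hSK K) (squareField_of_stmt hBC hSK) (seesawLocal_of_stmt hP4)
    (genericSpread_of_stmt hP5) cover (hGI K) (integral_of (hGI K))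

/-- The theorem of the square (strong form) in the row-lead's language: `H_M = A(K)`. -/
theorem inH_all (hT : T.IsLocal) (hC1 : Stmt.CurveCube T K)
    (hGI : ∀ X : AbVar K, GeometricallyIntegral X.str) (hGen : Stmt.CurvesGenerate K)
    (X : AbVar K) (M : T.Pic X.A) (x : X.Pt) : X.InH T M x := fun _ s b c =>
  Cube.squareK_of hT (curveCube_of_stmt hC1) (curvesGenerate_of_stmt hGen) hGI X M x s b c

end Official

end Fermat.Agent.S26.H778
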